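import Fermat.Agent.CFT.Stickelberger.Jacobi_helper1

/-!
# CFT (C5) Stickelberger, part 4: consequences for the class group of `ℚ(ζ_p)`

`K = ℚ(ζ_p)`, `p` an odd prime (`p = 3` included), `σ_d = clRingAction p K d` (`ζ ↦ ζ ^ d`).
* `prod_mk0_mapNonZero_eq_one`: for a prime `Q` above `q ≡ 1 mod p`,
  `∏_{0 < c < p/2} [σ_c⁻¹ Q] = 1` in the class group (Stickelberger, Jacobi sum form).
* `eq_zero_of_equivariant_of_isPrime`, `eq_zero_of_equivariant`: an additive map `f` from the class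
  group to a `ZMod p`-module with `f ∘ σ_d = d⁻¹ • f` vanishes.
* `eq_zero_of_isOmegaEigenvector`: `(Cl(K)/p)(ω^(p-2)) = 0` in the Prelude vocabulary.
* `eq_zero_of_equivariant_gal`: the same with `Gal(K/ℚ)` acting through `galRestrictionDatum`
  and the character `cycloGalEquiv p K` (`cycloGalEquiv_spec`: `σ y = y ^ (cycloGalEquiv p K σ)`).
-/

open NumberField JacobiSumStickelberger Stickelberger
open scoped nonZeroDivisors

namespace Fermat.Agent.CFT.Stick

attribute [local instance] neZero_of_fact_prime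

variable (p : ℕ) [hp : Fact p.Prime] (K : Type*) [Field K] [NumberField K]
  [IsCyclotomicExtension {p} ℚ K]

/-- Stickelberger (Jacobi sum form) in the class group, for a prime of degree one. -/
theorem prod_mk0_mapNonZero_eq_one (hp2 : p ≠ 2) (q : ℕ) [hq : Fact q.Prime]
    (hq1 : (q : ZMod p) = 1) (Q : (Ideal (𝓞 K))⁰) [hQ : (Q : Ideal (𝓞 K)).IsPrime]
    (hqQ : (q : 𝓞 K) ∈ (Q : Ideal (𝓞 K))) :
    ∏ c ∈ exponentSet p,
      ClassGroup.mk0 (Ideal.mapNonZero (clRingAction p K (expUnit p c)⁻¹) Q) = 1 := by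
  have hQbot : (Q : Ideal (𝓞 K)) ≠ ⊥ := ne_bot_of_natCast_mem K q _ hqQ
  haveI hQmax : (Q : Ideal (𝓞 K)).IsMaximal := hQ.isMaximal hQbot
  obtain ⟨J, hJ⟩ := exists_span_eq_prod_map p K q hq1 (Q : Ideal (𝓞 K)) hqQ hp2
  rw [← map_prod]
  have hcoe : ((∏ c ∈ exponentSet p, Ideal.mapNonZero (clRingAction p K (expUnit p c)⁻¹) Q :
      (Ideal (𝓞 K))⁰) : Ideal (𝓞 K)) = Ideal.span {J} := by
    rw [hJ, Submonoid.coe_finset_prod]
    rfl
  have hmem : Ideal.span {J} ∈ (Ideal (𝓞 K))⁰ := by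
    rw [← hcoe]; exact Subtype.property _
  have : (∏ c ∈ exponentSet p, Ideal.mapNonZero (clRingAction p K (expUnit p c)⁻¹) Q :
      (Ideal (𝓞 K))⁰) = ⟨Ideal.span {J}, hmem⟩ := Subtype.ext hcoe
  rw [this, ClassGroup.mk0_eq_one_iff]
  exact ⟨J, rfl⟩

theorem sum_exponentSet_ne_zero (hp2 : p ≠ 2) :
    (∑ c ∈ exponentSet p, (c : ZMod p)) ≠ 0 := by
  have hodd : p % 2 = 1 := (hp.out.eq_two_or_odd).resolve_left hp2
  obtain ⟨h, rfl⟩ : ∃ h, p = 2 * h + 1 := ⟨p / 2, by omega⟩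
  have h1 : exponentSet (2 * h + 1) = Finset.Icc 1 h := by
    rw [exponentSet_eq_Icc _ hp2]; congr 1; omega
  have h2 : ∀ n : ℕ, 2 * ∑ c ∈ Finset.Icc 1 n, c = n * (n + 1) := by
    intro n
    induction n with
    | zero => simp
    | succ n ih =>
      rw [Finset.sum_Icc_succ_top (by omega), mul_add, ih]; ring
  intro h0
  have h3 : ((8 * ∑ c ∈ exponentSet (2 * h + 1), c + 1 : ℕ) : ZMod (2 * h + 1)) = 1 := by
    push_cast
    rw [h0]; ring
  have h4 : 8 * ∑ c ∈ exponentSet (2 * h + 1), c + 1 = (2 * h + 1) * (2 * h + 1) := by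
    rw [h1]
    have := h2 h
    nlinarith
  rw [h4] at h3
  push_cast at h3
  have h5 : ((2 * h + 1 : ℕ) : ZMod (2 * h + 1)) = 0 := ZMod.natCast_self _
  push_cast at h5
  rw [h5, mul_zero] at h3
  exact zero_ne_one h3

/-- The prime above `p` is principal. -/
theorem isPrincipal_of_natCast_self_mem (Q : Ideal (𝓞 K)) [hQ : Q.IsPrime]
    (hpQ : (p : 𝓞 K) ∈ Q) : Q.IsPrincipal := by
  obtain ⟨ζ, hζ⟩ := IsCyclotomicExtension.exists_isPrimitiveRoot ℚ K (Set.mem_singleton p)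
    hp.out.ne_zero
  have hassoc := IsCyclotomicExtension.Rat.associated_zeta_sub_one_pow_prime p hζ
  have h1 : (hζ.toInteger - 1) ^ (p - 1) ∈ Q := by
    obtain ⟨u, hu⟩ := hassoc.symm
    rw [← hu]
    exact Q.mul_mem_right _ hpQ
  have h2 : hζ.toInteger - 1 ∈ Q := hQ.mem_of_pow_mem _ h1
  have hprime : (Ideal.span {hζ.toInteger - 1}).IsPrime :=
    IsCyclotomicExtension.Rat.isPrime_span_zeta_sub_one' p hζ
  have hne : Ideal.span {hζ.toInteger - 1} ≠ ⊥ := by
    rw [Ne, Ideal.span_singleton_eq_bot]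
    exact sub_ne_zero.mpr (hζ.toInteger_isPrimitiveRoot.ne_one hp.out.one_lt)
  have hmax : (Ideal.span {hζ.toInteger - 1}).IsMaximal := hprime.isMaximal hne
  have heq : Ideal.span {hζ.toInteger - 1} = Q :=
    hmax.eq_of_le hQ.ne_top ((Ideal.span_singleton_le_iff_mem _).mpr h2)
  exact ⟨hζ.toInteger - 1, heq.symm⟩

/-- The residue characteristic of a nonzero prime. -/
theorem exists_prime_natCast_mem (Q : Ideal (𝓞 K)) [hQ : Q.IsPrime] (hQ0 : Q ≠ ⊥) :
    ∃ q : ℕ, q.Prime ∧ (q : 𝓞 K) ∈ Q := by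
  haveI : Q.IsMaximal := hQ.isMaximal hQ0
  letI := Ideal.Quotient.field Q
  haveI : Finite (𝓞 K ⧸ Q) := Ideal.finiteQuotientOfFreeOfNeBot Q hQ0
  refine ⟨ringChar (𝓞 K ⧸ Q), CharP.char_is_prime (𝓞 K ⧸ Q) _, ?_⟩
  rw [← Ideal.Quotient.eq_zero_iff_mem, map_natCast]
  exact CharP.cast_eq_zero _ _

section Hom

variable {p K}
variable {A : Type*} [AddCommGroup A] [Module (ZMod p) A]
    (f : Additive (ClassGroup (𝓞 K)) →+ A)
    (hf : ∀ (d : (ZMod p)ˣ) (P : (Ideal (𝓞 K))⁰), (P : Ideal (𝓞 K)).IsPrime →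
      f (Additive.ofMul (ClassGroup.mk0 (Ideal.mapNonZero (clRingAction p K d) P))) =
        ((d⁻¹ : (ZMod p)ˣ) : ZMod p) • f (Additive.ofMul (ClassGroup.mk0 P)))

include hf in
theorem apply_mk0_eq_zero_of_isPrime (hp2 : p ≠ 2)
    (P : (Ideal (𝓞 K))⁰) (hP : (P : Ideal (𝓞 K)).IsPrime) :
    f (Additive.ofMul (ClassGroup.mk0 P)) = 0 := by
  have hP0 : (P : Ideal (𝓞 K)) ≠ ⊥ := by
    have := nonZeroDivisors.ne_zero P.2
    simpa using this
  obtain ⟨q, hqprime, hqP⟩ := exists_prime_natCast_mem K (P : Ideal (𝓞 K)) hP0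
  haveI : Fact q.Prime := ⟨hqprime⟩
  by_cases hqp : q = p
  · subst hqp
    have hprinc := isPrincipal_of_natCast_self_mem q K (P : Ideal (𝓞 K)) hqP
    have h1 : ClassGroup.mk0 P = 1 := by
      have := (ClassGroup.mk0_eq_one_iff (I := (P : Ideal (𝓞 K))) P.2).mpr hprinc
      exact this
    rw [h1, ofMul_one, map_zero]
  · have hcop : Nat.Coprime q p := (Nat.coprime_primes hqprime hp.out).mpr hqp
    by_cases hq1 : (q : ZMod p) = 1
    · -- degree one: Stickelberger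
      have hprod := prod_mk0_mapNonZero_eq_one p K hp2 q hq1 P hqP
      have h2 := congrArg (fun C => f (Additive.ofMul C)) hprod
      simp only [ofMul_prod, map_sum, ofMul_one, map_zero] at h2
      rw [Finset.sum_congr rfl (fun c hc => hf (expUnit p c)⁻¹ P hP)] at h2
      simp only [inv_inv] at h2
      rw [Finset.sum_congr rfl (fun c hc => by rw [coe_expUnit p hc]), ← Finset.sum_smul] at h2
      have hne := sum_exponentSet_ne_zero p hp2
      have := congrArg (fun a => (∑ c ∈ exponentSet p, (c : ZMod p))⁻¹ • a) h2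
      simp only [smul_smul, inv_mul_cancel₀ hne, one_smul, smul_zero] at this
      exact this
    · -- higher degree: `σ_q` fixes `P`
      set d : (ZMod p)ˣ := ZMod.unitOfCoprime q hcop with hd
      have hdq : (d : ZMod p) = (q : ZMod p) := ZMod.coe_unitOfCoprime q hcop
      have hfix := map_clRingAction_eq_self p K q d hdq (P : Ideal (𝓞 K)) hqP
      have hfix' : Ideal.mapNonZero (clRingAction p K d) P = P := Subtype.ext hfix
      have h2 := hf d P hP
      rw [hfix'] at h2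
      set x := f (Additive.ofMul (ClassGroup.mk0 P)) with hx
      have hu : (1 - ((d⁻¹ : (ZMod p)ˣ) : ZMod p)) ≠ 0 := by
        rw [sub_ne_zero]
        intro h
        have : (d⁻¹ : (ZMod p)ˣ) = 1 := Units.ext h.symm
        rw [inv_eq_one] at this
        rw [this] at hdq
        exact hq1 hdq.symm
      have h3 : (1 - ((d⁻¹ : (ZMod p)ˣ) : ZMod p)) • x = 0 := by
        rw [sub_smul, one_smul, ← h2, sub_self]
      have := congrArg (fun a => (1 - ((d⁻¹ : (ZMod p)ˣ) : ZMod p))⁻¹ • a) h3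
      simp only [smul_smul, inv_mul_cancel₀ hu, one_smul, smul_zero] at this
      exact this

include hf in
/-- **Stickelberger, eigenspace form**: an `ω⁻¹`-equivariant additive map from the class group
of `ℚ(ζ_p)` to a `ZMod p`-module vanishes. -/
theorem eq_zero_of_equivariant_of_isPrime (hp2 : p ≠ 2) : f = 0 := by
  have key : ∀ I : Ideal (𝓞 K), ∀ hI : I ∈ (Ideal (𝓞 K))⁰,
      f (Additive.ofMul (ClassGroup.mk0 ⟨I, hI⟩)) = 0 := by
    intro I
    induction I using UniqueFactorizationMonoid.induction_on_prime with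
    | h₁ =>
      intro hI
      exact absurd rfl (nonZeroDivisors.ne_zero hI)
    | h₂ I hI =>
      intro hI'
      have : I = 1 := by
        rw [Ideal.one_eq_top]
        exact Ideal.isUnit_iff.mp hI
      subst this
      have : (⟨1, hI'⟩ : (Ideal (𝓞 K))⁰) = 1 := rfl
      rw [this, map_one, ofMul_one, map_zero]
    | h₃ I P hI0 hP ih =>
      intro hPI
      have hP' : P ∈ (Ideal (𝓞 K))⁰ := mem_nonZeroDivisors_of_ne_zero hP.ne_zero
      have hI' : I ∈ (Ideal (𝓞 K))⁰ := mem_nonZeroDivisors_of_ne_zero hI0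
      have : (⟨P * I, hPI⟩ : (Ideal (𝓞 K))⁰) = ⟨P, hP'⟩ * ⟨I, hI'⟩ := rfl
      rw [this, map_mul, ofMul_mul, map_add, ih hI',
        apply_mk0_eq_zero_of_isPrime f hf hp2 ⟨P, hP'⟩ (Ideal.isPrime_of_prime hP), add_zero]
  refine AddMonoidHom.ext fun C => ?_
  obtain ⟨I, hI⟩ := ClassGroup.mk0_surjective (Additive.toMul C)
  have : C = Additive.ofMul (ClassGroup.mk0 I) := by rw [hI]; rfl
  rw [this]
  exact key I.1 I.2

omit hf in
/-- Variant with the equivariance stated on ideal classes. -/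
theorem eq_zero_of_equivariant
    (hf' : ∀ (d : (ZMod p)ˣ) (C : ClassGroup (𝓞 K)),
      f (Additive.ofMul (ClassGroup.mulEquiv (clRingAction p K d) C)) =
        ((d⁻¹ : (ZMod p)ˣ) : ZMod p) • f (Additive.ofMul C))
    (hp2 : p ≠ 2) : f = 0 := by
  refine eq_zero_of_equivariant_of_isPrime f (fun d P _ => ?_) hp2
  rw [← ClassGroup.mulEquiv_mk0]
  exact hf' d _

end Hom

/-- **Stickelberger, Prelude vocabulary**: the `ω^(p-2) = ω⁻¹`-eigenspace of `Cl(ℚ(ζ_p))/p`
vanishes. -/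
theorem eq_zero_of_isOmegaEigenvector (hp2 : p ≠ 2) (a : ClGalModule p (𝓞 K))
    (ha : IsOmegaEigenvector (clGalAction p K) (p - 2) a) : a = 0 := by
  by_contra hne
  obtain ⟨l, hl⟩ := Module.Projective.exists_dual_ne_zero (ZMod p) hne
  let F : ClGalModule p (𝓞 K) →ₗ[ZMod p] ZMod p :=
    ∑ d : (ZMod p)ˣ, ((d : ZMod p)) • (l ∘ₗ clGalAction p K d)
  have hF : ∀ x, F x = ∑ d : (ZMod p)ˣ, (d : ZMod p) * l (clGalAction p K d x) := by
    intro x
    simp [F, LinearMap.sum_apply]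
  let f : Additive (ClassGroup (𝓞 K)) →+ ZMod p := F.toAddMonoidHom.comp (clProj p (𝓞 K))
  have hfF : ∀ C, f C = F (clProj p (𝓞 K) C) := fun C => rfl
  have hequiv : ∀ (e : (ZMod p)ˣ) (x : ClGalModule p (𝓞 K)),
      F (clGalAction p K e x) = ((e⁻¹ : (ZMod p)ˣ) : ZMod p) * F x := by
    intro e x
    rw [hF, hF, Finset.mul_sum]
    refine Fintype.sum_equiv (Equiv.mulRight e) _ _ fun d => ?_
    simp only [Equiv.coe_mulRight]
    rw [← Module.End.mul_apply, ← map_mul, ← mul_assoc]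
    congr 1
    rw [Units.val_mul, mul_comm ((e⁻¹ : (ZMod p)ˣ) : ZMod p), mul_assoc, ← Units.val_mul,
      mul_inv_cancel, Units.val_one, mul_one]
  have hf0 : f = 0 := by
    refine eq_zero_of_equivariant_of_isPrime f (fun d P _ => ?_) hp2
    rw [hfF, hfF, ← clGalAction_clProj_mk0, hequiv, smul_eq_mul]
  obtain ⟨C, hC⟩ := clProj_surjective p (𝓞 K) a
  have h1 : F a = 0 := by
    rw [← hC, ← hfF, hf0]; rfl
  rw [hF] at h1
  have h2 : ∀ d : (ZMod p)ˣ, (d : ZMod p) * l (clGalAction p K d a) = l a := by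
    intro d
    rw [ha d, map_smul, smul_eq_mul, ← mul_assoc, ← pow_succ']
    have : p - 2 + 1 = p - 1 := by have := hp.out.two_le; omega
    rw [this, ZMod.pow_card_sub_one_eq_one d.ne_zero, one_mul]
  rw [Finset.sum_congr rfl (fun d _ => h2 d), Finset.sum_const, Finset.card_univ,
    ZMod.card_units_eq_totient, Nat.totient_prime hp.out, nsmul_eq_mul] at h1
  have h3 : ((p - 1 : ℕ) : ZMod p) = -1 := by
    rw [Nat.cast_sub hp.out.one_le, ZMod.natCast_self, Nat.cast_one, zero_sub]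
  rw [h3, neg_one_mul, neg_eq_zero] at h1
  exact hl h1

theorem clRingAction_cycloGalEquiv (σ : K ≃ₐ[ℚ] K) :
    clRingAction p K (cycloGalEquiv p K σ) = galRestrictionDatum ℤ ℚ K (𝓞 K) σ := by
  show galRestrictionDatum ℤ ℚ K (𝓞 K) ((cycloGalEquiv p K).symm (cycloGalEquiv p K σ)) = _
  rw [MulEquiv.symm_apply_apply]

/-- The mod `p` cyclotomic character: `σ y = y ^ (cycloGalEquiv p K σ)` for `y ^ p = 1`. -/
theorem cycloGalEquiv_spec (σ : K ≃ₐ[ℚ] K) {y : K} (hy : y ^ p = 1) :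
    σ y = y ^ ((cycloGalEquiv p K σ : (ZMod p)ˣ) : ZMod p).val :=
  IsCyclotomicExtension.Rat.galEquivZMod_apply_of_pow_eq p K σ hy

variable {p K}

/-- Variant of `eq_zero_of_equivariant_of_isPrime` with the action of `Gal(K/ℚ)`. -/
theorem eq_zero_of_equivariant_gal {A : Type*} [AddCommGroup A] [Module (ZMod p) A]
    (f : Additive (ClassGroup (𝓞 K)) →+ A)
    (hf : ∀ (σ : K ≃ₐ[ℚ] K) (P : (Ideal (𝓞 K))⁰), (P : Ideal (𝓞 K)).IsPrime →
      f (Additive.ofMul (ClassGroup.mk0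
          (Ideal.mapNonZero (galRestrictionDatum ℤ ℚ K (𝓞 K) σ) P))) =
        (((cycloGalEquiv p K σ)⁻¹ : (ZMod p)ˣ) : ZMod p) • f (Additive.ofMul (ClassGroup.mk0 P)))
    (hp2 : p ≠ 2) : f = 0 := by
  refine eq_zero_of_equivariant_of_isPrime f (fun d P hP => ?_) hp2
  have := hf ((cycloGalEquiv p K).symm d) P hP
  rw [← clRingAction_cycloGalEquiv p K, MulEquiv.apply_symm_apply] at this
  exact this

/-- (C5) in the exact shape of helper5's `StickelbergerVanishing p` (finding S14/interface/helper5),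
unfolded. -/
theorem stickelbergerVanishing_unfolded (p : ℕ) [hp : Fact p.Prime] (h3 : 3 ≤ p) :
    haveI : NeZero p := ⟨(Fact.out : p.Prime).ne_zero⟩
    ∀ (K : Type) [Field K] [NumberField K] [IsCyclotomicExtension {p} ℚ K] (M : Type)
      [AddCommGroup M] [Module (ZMod p) M] (f : ClassGroup (𝓞 K) →* Multiplicative M),
      (∀ (d : (ZMod p)ˣ) (C : ClassGroup (𝓞 K)),
        (f (ClassGroup.mulEquiv (JacobiSumStickelberger.clRingAction p K d) C)).toAdd =
          ((d⁻¹ : (ZMod p)ˣ) : ZMod p) • (f C).toAdd) → ∀ C, f C = 1 := by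
  intro K _ _ _ M _ _ f hf C
  have hp2 : p ≠ 2 := by omega
  have h0 := eq_zero_of_equivariant (p := p) (K := K) (MonoidHom.toAdditiveLeft f)
    (fun d C => hf d C) hp2
  have := DFunLike.congr_fun h0 (Additive.ofMul C)
  exact Multiplicative.toAdd.injective this

end Fermat.Agent.CFT.Stick
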