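import Mathlib
import Fermat.Prelude.Def_ClassGroup_GaloisAction
import Fermat.Prelude.Def_Stickelberger_Basic

/-!
# CFT (C5) Stickelberger, part 2: the Galois action `clRingAction` on `𝓞 ℚ(ζ_p)`

* `clRingAction_apply_of_pow_eq_one`: `σ_d y = y ^ d` for `y ^ p = 1`.
* `clRingAction_frobenius`: `σ_q x ≡ x ^ q mod q`.
* `map_clRingAction_eq_self`: `σ_q` fixes every prime above `q`.
-/

open NumberField JacobiSumStickelberger Stickelberger

namespace Fermat.Agent.CFT.Stick

variable (p : ℕ) [hp : Fact p.Prime] (K : Type*) [Field K] [NumberField K]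
  [IsCyclotomicExtension {p} ℚ K]

theorem neZero_of_fact_prime : NeZero p := ⟨hp.out.ne_zero⟩

attribute [local instance] neZero_of_fact_prime

theorem coe_clRingAction_apply (d : (ZMod p)ˣ) (x : 𝓞 K) :
    ((clRingAction p K d x : 𝓞 K) : K) = (cycloGalEquiv p K).symm d (x : K) := by
  show algebraMap (𝓞 K) K (galRestrict ℤ ℚ K (𝓞 K) ((cycloGalEquiv p K).symm d) x) = _
  rw [algebraMap_galRestrict_apply]

theorem clRingAction_apply_of_pow_eq_one (d : (ZMod p)ˣ) {y : 𝓞 K} (hy : y ^ p = 1) :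
    clRingAction p K d y = y ^ (d : ZMod p).val := by
  apply RingOfIntegers.ext
  rw [coe_clRingAction_apply]
  have hy' : (y : K) ^ p = 1 := by
    have := congrArg (fun z : 𝓞 K => (z : K)) hy
    simpa using this
  have := IsCyclotomicExtension.Rat.galEquivZMod_apply_of_pow_eq p K
    ((cycloGalEquiv p K).symm d) hy'
  rw [this]
  have h2 : IsCyclotomicExtension.Rat.galEquivZMod p K ((cycloGalEquiv p K).symm d) = d :=
    (cycloGalEquiv p K).apply_symm_apply d
  rw [h2]
  simp

theorem clRingAction_intCast (d : (ZMod p)ˣ) (n : ℤ) : clRingAction p K d (n : 𝓞 K) = n :=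
  map_intCast _ n

theorem clRingAction_one_apply (x : 𝓞 K) : clRingAction p K 1 x = x := by
  rw [map_one]; rfl

theorem clRingAction_mul_apply (d e : (ZMod p)ˣ) (x : 𝓞 K) :
    clRingAction p K (d * e) x = clRingAction p K d (clRingAction p K e x) := by
  rw [map_mul]; rfl

theorem clRingAction_inv_apply_apply (d : (ZMod p)ˣ) (x : 𝓞 K) :
    clRingAction p K d⁻¹ (clRingAction p K d x) = x := by
  rw [← clRingAction_mul_apply, inv_mul_cancel, clRingAction_one_apply]

theorem clRingAction_apply_inv_apply (d : (ZMod p)ˣ) (x : 𝓞 K) :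
    clRingAction p K d (clRingAction p K d⁻¹ x) = x := by
  rw [← clRingAction_mul_apply, mul_inv_cancel, clRingAction_one_apply]

/-- Frobenius congruence: `σ_q x ≡ x ^ q mod q`. -/
theorem clRingAction_frobenius (q : ℕ) [hq : Fact q.Prime] (d : (ZMod p)ˣ)
    (hd : (d : ZMod p) = (q : ZMod p)) (x : 𝓞 K) :
    (q : 𝓞 K) ∣ clRingAction p K d x - x ^ q := by
  obtain ⟨ζ, hζ⟩ := IsCyclotomicExtension.exists_isPrimitiveRoot ℚ K (Set.mem_singleton p)
      hp.out.ne_zero
  have hx : x ∈ Algebra.adjoin ℤ {hζ.toInteger} := by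
    rw [IsCyclotomicExtension.Rat.adjoin_singleton_eq_top hζ]; trivial
  induction hx using Algebra.adjoin_induction with
  | mem x hx =>
    rw [Set.mem_singleton_iff] at hx
    subst hx
    have h1 : hζ.toInteger ^ p = 1 := hζ.toInteger_isPrimitiveRoot.pow_eq_one
    rw [clRingAction_apply_of_pow_eq_one p K d h1, hd]
    have : hζ.toInteger ^ (q : ZMod p).val = hζ.toInteger ^ q := by
      rw [ZMod.val_natCast]
      conv_rhs => rw [← Nat.mod_add_div q p]
      rw [pow_add, pow_mul, h1, one_pow, mul_one]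
    rw [this, sub_self]
    exact dvd_zero _
  | algebraMap n =>
    rw [eq_intCast, clRingAction_intCast]
    have h : (q : ℤ) ∣ n - n ^ q := by
      rw [← ZMod.intCast_zmod_eq_zero_iff_dvd]
      push_cast
      rw [ZMod.pow_card, sub_self]
    obtain ⟨c, hc⟩ := h
    refine ⟨(c : 𝓞 K), ?_⟩
    have := congrArg (fun z : ℤ => (z : 𝓞 K)) hc
    simpa using this
  | add x y _ _ hx hy =>
    obtain ⟨r, hr⟩ := exists_add_pow_prime_eq hq.out x y
    rw [map_add, hr]
    have : clRingAction p K d x + clRingAction p K d y - (x ^ q + y ^ q + ↑q * x * y * r) =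
      (clRingAction p K d x - x ^ q) + (clRingAction p K d y - y ^ q) - q * (x * y * r) := by ring
    rw [this]
    exact dvd_sub (dvd_add hx hy) (dvd_mul_right _ _)
  | mul x y _ _ hx hy =>
    rw [map_mul]
    have : clRingAction p K d x * clRingAction p K d y - (x * y) ^ q =
      (clRingAction p K d x - x ^ q) * clRingAction p K d y +
        x ^ q * (clRingAction p K d y - y ^ q) := by ring
    rw [this]
    exact dvd_add (hx.mul_right _) (hy.mul_left _)

/-- `σ_q` fixes every prime above `q`. -/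
theorem map_clRingAction_eq_self (q : ℕ) [hq : Fact q.Prime] (d : (ZMod p)ˣ)
    (hd : (d : ZMod p) = (q : ZMod p)) (Q : Ideal (𝓞 K)) [hQ : Q.IsPrime] (hqQ : (q : 𝓞 K) ∈ Q) :
    Q.map (clRingAction p K d : 𝓞 K →+* 𝓞 K) = Q := by
  have hq0 : (q : 𝓞 K) ≠ 0 := by exact_mod_cast hq.out.ne_zero
  have hQbot : Q ≠ ⊥ := fun h => hq0 (by rw [h] at hqQ; exact hqQ)
  have hQmax : Q.IsMaximal := hQ.isMaximal hQbot
  have hle : Q.map (clRingAction p K d : 𝓞 K →+* 𝓞 K) ≤ Q := by
    rw [Ideal.map_le_iff_le_comap]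
    intro x hx
    rw [Ideal.mem_comap]
    obtain ⟨c, hc⟩ := clRingAction_frobenius p K q d hd x
    have : clRingAction p K d x = x ^ q + q * c := by rw [← hc]; ring
    show clRingAction p K d x ∈ Q
    rw [this]
    exact Q.add_mem (Q.pow_mem_of_mem hx q hq.out.pos) (Q.mul_mem_right _ hqQ)
  have hmax : (Q.map (clRingAction p K d : 𝓞 K →+* 𝓞 K)).IsMaximal := by
    rw [Ideal.map_comap_of_equiv]
    exact Ideal.comap_isMaximal_of_surjective _ (clRingAction p K d).symm.surjective
  exact hmax.eq_of_le hQmax.ne_top hle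

/-- Membership in a Galois conjugate of an ideal. -/
theorem mem_map_clRingAction_inv_iff (d : (ZMod p)ˣ) (Q : Ideal (𝓞 K)) (x : 𝓞 K) :
    x ∈ Q.map (clRingAction p K d⁻¹ : 𝓞 K →+* 𝓞 K) ↔ clRingAction p K d x ∈ Q := by
  rw [Ideal.map_comap_of_equiv, Ideal.mem_comap]
  have : (clRingAction p K d⁻¹).symm x = clRingAction p K d x := by
    rw [RingEquiv.symm_apply_eq, clRingAction_inv_apply_apply]
  rw [← this]

theorem map_map_clRingAction (d e : (ZMod p)ˣ) (Q : Ideal (𝓞 K)) :
    (Q.map (clRingAction p K e : 𝓞 K →+* 𝓞 K)).map (clRingAction p K d : 𝓞 K →+* 𝓞 K) =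
      Q.map (clRingAction p K (d * e) : 𝓞 K →+* 𝓞 K) := by
  rw [Ideal.map_map]
  congr 1
  exact RingHom.ext fun x => (clRingAction_mul_apply p K d e x).symm

theorem map_clRingAction_one (Q : Ideal (𝓞 K)) :
    Q.map (clRingAction p K 1 : 𝓞 K →+* 𝓞 K) = Q := by
  have : (clRingAction p K 1 : 𝓞 K →+* 𝓞 K) = RingHom.id _ :=
    RingHom.ext fun x => clRingAction_one_apply p K x
  rw [this, Ideal.map_id]

end Fermat.Agent.CFT.Stick
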