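import Fermat.Agent.CFT.Stickelberger.PowerResidue_helper1
import Fermat.Agent.CFT.Stickelberger.Action_helper1

/-!
# CFT (C5) Stickelberger, part 3: the Jacobi sum factorisation for primes of degree one

`K = ℚ(ζ_p)`, `Q` a prime of `𝓞 K` above a rational prime `q ≡ 1 mod p`.
* `exists_jacobi`: an element `J` (the Jacobi sum `J(χ,χ)` of the `p`-th power residue character)
  with `σ_d J ∈ Q` whenever `2 d < p`, and `J * σ_{-1} J = q`.
* `eq_one_of_map_eq_self`: the stabiliser of `Q` is trivial.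
* `exists_span_eq_prod_map`: `(J) = ∏_{0 < c < p/2} σ_c⁻¹ Q`.
-/

open NumberField JacobiSumStickelberger Stickelberger

namespace Fermat.Agent.CFT.Stick

attribute [local instance] neZero_of_fact_prime

variable (p : ℕ) [hp : Fact p.Prime] (K : Type*) [Field K] [NumberField K]
  [IsCyclotomicExtension {p} ℚ K]

theorem absNorm_map_ringEquiv {S : Type*} [CommRing S] [IsDedekindDomain S]
    [Module.Free ℤ S] (σ : S ≃+* S) (I : Ideal S) :
    Ideal.absNorm (I.map (σ : S →+* S)) = Ideal.absNorm I := by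
  rw [Ideal.absNorm_apply, Ideal.absNorm_apply, Submodule.cardQuot_apply, Submodule.cardQuot_apply]
  exact Nat.card_congr (Ideal.quotientEquiv I (I.map (σ : S →+* S)) σ rfl).symm.toEquiv

theorem exponentSet_eq_Icc (hp2 : p ≠ 2) : exponentSet p = Finset.Icc 1 ((p - 1) / 2) := by
  have hodd : p % 2 = 1 := (hp.out.eq_two_or_odd).resolve_left hp2
  ext c
  rw [mem_exponentSet, Finset.mem_Icc]
  omega

theorem two_mul_card_exponentSet (hp2 : p ≠ 2) : 2 * (exponentSet p).card = p - 1 := by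
  have hodd : p % 2 = 1 := (hp.out.eq_two_or_odd).resolve_left hp2
  rw [exponentSet_eq_Icc p hp2, Nat.card_Icc]
  omega

theorem coe_expUnit {c : ℕ} (hc : c ∈ exponentSet p) :
    ((expUnit p c : (ZMod p)ˣ) : ZMod p) = (c : ZMod p) := by
  rw [mem_exponentSet] at hc
  have hcop : Nat.Coprime c p :=
    ((Nat.Prime.coprime_iff_not_dvd hp.out).mpr (Nat.not_dvd_of_pos_of_lt hc.1 (by omega))).symm
  rw [expUnit, dif_pos hcop, ZMod.coe_unitOfCoprime]

theorem val_expUnit {c : ℕ} (hc : c ∈ exponentSet p) :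
    ((expUnit p c : (ZMod p)ˣ) : ZMod p).val = c := by
  rw [coe_expUnit p hc]
  rw [mem_exponentSet] at hc
  exact ZMod.val_cast_of_lt (by omega)

theorem expUnit_injOn : Set.InjOn (expUnit p) (exponentSet p : Set ℕ) := by
  intro c hc c' hc' h
  have h1 := val_expUnit p hc
  have h2 := val_expUnit p hc'
  rw [h] at h1
  omega

section DegreeOne

variable (q : ℕ) [hq : Fact q.Prime] (hq1 : (q : ZMod p) = 1)
  (Q : Ideal (𝓞 K)) [hQ : Q.IsMaximal] (hqQ : (q : 𝓞 K) ∈ Q)

attribute [local instance] Ideal.Quotient.field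

include hq1 in
omit hq in
theorem ne_of_natCast_eq_one : q ≠ p := by
  rintro rfl
  rw [ZMod.natCast_self] at hq1
  exact zero_ne_one hq1

include hq1 in
theorem exists_eq_mul_add_one : ∃ m : ℕ, q = p * m + 1 := by
  have h1 : (1 : ZMod p) = ((1 : ℕ) : ZMod p) := by simp
  rw [h1, ZMod.natCast_eq_natCast_iff] at hq1
  have h2 : p ∣ q - 1 := (Nat.modEq_iff_dvd' hq.out.one_le).mp hq1.symm
  obtain ⟨m, hm⟩ := h2
  exact ⟨m, by have := hq.out.one_le; omega⟩

include hqQ in
omit hQ in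
theorem ne_bot_of_natCast_mem : Q ≠ ⊥ := by
  have hq0 : (q : 𝓞 K) ≠ 0 := by exact_mod_cast hq.out.ne_zero
  exact fun h => hq0 (by rw [h] at hqQ; exact hqQ)

include hqQ in
omit hQ in
theorem finite_quotient_of_natCast_mem : Finite (𝓞 K ⧸ Q) :=
  Ideal.finiteQuotientOfFreeOfNeBot Q (ne_bot_of_natCast_mem K q Q hqQ)

include hq1 hqQ in
theorem quotient_pow_eq_self (y : 𝓞 K ⧸ Q) : y ^ q = y := by
  obtain ⟨x, rfl⟩ := Ideal.Quotient.mk_surjective y
  obtain ⟨c, hc⟩ := clRingAction_frobenius p K q 1 (by rw [hq1]; rfl) x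
  rw [clRingAction_one_apply] at hc
  have h : Ideal.Quotient.mk Q (x - x ^ q) = 0 := by
    rw [hc, map_mul, Ideal.Quotient.eq_zero_iff_mem.mpr hqQ, zero_mul]
  rw [map_sub, map_pow, sub_eq_zero] at h
  exact h.symm

include hq1 hqQ in
theorem card_quotient_eq [Fintype (𝓞 K ⧸ Q)] : Fintype.card (𝓞 K ⧸ Q) = q := by
  have hqk : ((q : ℕ) : 𝓞 K ⧸ Q) = 0 := by
    rw [← map_natCast (Ideal.Quotient.mk Q)]
    exact Ideal.Quotient.eq_zero_iff_mem.mpr hqQ
  exact card_eq_of_forall_pow_eq q hqk (quotient_pow_eq_self p K q hq1 Q hqQ)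

include hq1 hqQ in
theorem absNorm_eq : Ideal.absNorm Q = q := by
  haveI := finite_quotient_of_natCast_mem K q Q hqQ
  letI : Fintype (𝓞 K ⧸ Q) := Fintype.ofFinite _
  rw [Ideal.absNorm_apply, Submodule.cardQuot_apply]
  rw [← card_quotient_eq p K q hq1 Q hqQ, Nat.card_eq_fintype_card]

include hq1 hqQ in
theorem exists_jacobi (hp2 : p ≠ 2) :
    ∃ J : 𝓞 K, (∀ d : (ZMod p)ˣ, 2 * (d : ZMod p).val < p → clRingAction p K d J ∈ Q) ∧
      J * clRingAction p K (-1) J = q := by
  classical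
  haveI := finite_quotient_of_natCast_mem K q Q hqQ
  letI : Fintype (𝓞 K ⧸ Q) := Fintype.ofFinite _
  obtain ⟨m, hm⟩ := exists_eq_mul_add_one p q hq1
  have hcard : Fintype.card (𝓞 K ⧸ Q) = q := card_quotient_eq p K q hq1 Q hqQ
  have hcard' : Fintype.card (𝓞 K ⧸ Q) = p * m + 1 := by rw [hcard, hm]
  obtain ⟨ζ, hζ⟩ := IsCyclotomicExtension.exists_isPrimitiveRoot ℚ K (Set.mem_singleton p)
    hp.out.ne_zero
  have hζ1 : hζ.toInteger ^ p = 1 := hζ.toInteger_isPrimitiveRoot.pow_eq_one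
  have habs : Ideal.absNorm Q = q := absNorm_eq p K q hq1 Q hqQ
  have hζk : IsPrimitiveRoot (Ideal.Quotient.mk Q hζ.toInteger) p :=
    hζ.toInteger_isPrimitiveRoot.idealQuotient_mk (by rw [habs]; exact hq.out.ne_one)
      (by rw [habs]; exact (Nat.coprime_primes hq.out hp.out).mpr (ne_of_natCast_eq_one p q hq1))
  obtain ⟨χ, hχp, hχ⟩ := exists_powerResidueChar (Ideal.Quotient.mk Q) hcard' hζ1 hζk
  have hvalpos : ∀ d : (ZMod p)ˣ, 0 < (d : ZMod p).val := by
    intro d
    rw [ZMod.val_pos]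
    exact d.ne_zero
  have hA : ∀ d : (ZMod p)ˣ,
      χ.ringHomComp (clRingAction p K d : 𝓞 K →+* 𝓞 K) = χ ^ (d : ZMod p).val := by
    intro d
    refine MulChar.ext fun x => ?_
    rw [MulChar.ringHomComp_apply, MulChar.pow_apply' _ (hvalpos d).ne']
    exact clRingAction_apply_of_pow_eq_one p K d (hχp x)
  have hB : ∀ d : (ZMod p)ˣ, clRingAction p K d (jacobiSum χ χ) =
      jacobiSum (χ ^ (d : ZMod p).val) (χ ^ (d : ZMod p).val) := by
    intro d
    rw [← hA, jacobiSum_ringHomComp]; rfl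
  refine ⟨jacobiSum χ χ, ?_, ?_⟩
  · intro d hd
    rw [← Ideal.Quotient.eq_zero_iff_mem, hB]
    exact map_jacobiSum_pow_pow_eq_zero _ hcard' hχ (hvalpos d) (hvalpos d) (by omega)
  · have hp3 : 2 < p := lt_of_le_of_ne hp.out.two_le (Ne.symm hp2)
    have h1 : χ ≠ 1 := by
      have := powerResidueChar_pow_ne_one (Ideal.Quotient.mk Q) hcard' hχ (j := 1) one_pos
        hp.out.one_lt
      rwa [pow_one] at this
    have h2 : χ * χ ≠ 1 := by
      rw [← pow_two]
      exact powerResidueChar_pow_ne_one (Ideal.Quotient.mk Q) hcard' hχ two_pos hp3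
    have hχpow : χ ^ p = 1 := by
      refine MulChar.ext fun x => ?_
      rw [MulChar.pow_apply' _ hp.out.ne_zero, hχp, MulChar.one_apply_coe]
    have hinv : χ⁻¹ = χ ^ ((-1 : (ZMod p)ˣ) : ZMod p).val := by
      have hval : ((-1 : (ZMod p)ˣ) : ZMod p).val = p - 1 := by
        rw [Units.val_neg, Units.val_one]
        obtain ⟨n, rfl⟩ : ∃ n, p = n + 1 := ⟨p - 1, by have := hp.out.pos; omega⟩
        rw [ZMod.val_neg_one]; rfl
      rw [hval]
      refine inv_eq_of_mul_eq_one_right ?_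
      rw [← pow_succ', Nat.sub_add_cancel hp.out.one_le, hχpow]
    have hinj : Function.Injective (algebraMap (𝓞 K) K) := RingOfIntegers.coe_injective
    have hchar : ringChar K ≠ ringChar (𝓞 K ⧸ Q) := by
      have hk : CharP (𝓞 K ⧸ Q) q := by
        refine (CharP.charP_iff_prime_eq_zero hq.out).mpr ?_
        rw [← map_natCast (Ideal.Quotient.mk Q)]
        exact Ideal.Quotient.eq_zero_iff_mem.mpr hqQ
      rw [ringChar.eq_zero, ringChar.eq (𝓞 K ⧸ Q) q]
      exact hq.out.ne_zero.symm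
    have key := jacobiSum_mul_jacobiSum_inv hchar
      ((MulChar.ringHomComp_ne_one_iff hinj).mpr h1) ((MulChar.ringHomComp_ne_one_iff hinj).mpr h1)
      (by rw [← MulChar.ringHomComp_mul]; exact (MulChar.ringHomComp_ne_one_iff hinj).mpr h2)
    rw [MulChar.ringHomComp_inv, jacobiSum_ringHomComp, jacobiSum_ringHomComp, ← map_mul,
      hcard] at key
    rw [hB, ← hinv]
    apply hinj
    rw [key, map_natCast]

include hq1 hqQ in
/-- The stabiliser of a degree-one prime is trivial. -/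
theorem eq_one_of_map_eq_self (d : (ZMod p)ˣ)
    (h : Q.map (clRingAction p K d : 𝓞 K →+* 𝓞 K) = Q) : d = 1 := by
  classical
  haveI := finite_quotient_of_natCast_mem K q Q hqQ
  letI : Fintype (𝓞 K ⧸ Q) := Fintype.ofFinite _
  have hcard : Fintype.card (𝓞 K ⧸ Q) = q := card_quotient_eq p K q hq1 Q hqQ
  obtain ⟨ζ, hζ⟩ := IsCyclotomicExtension.exists_isPrimitiveRoot ℚ K (Set.mem_singleton p)
    hp.out.ne_zero
  have hζ1 : hζ.toInteger ^ p = 1 := hζ.toInteger_isPrimitiveRoot.pow_eq_one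
  have habs : Ideal.absNorm Q = q := absNorm_eq p K q hq1 Q hqQ
  have hζk : IsPrimitiveRoot (Ideal.Quotient.mk Q hζ.toInteger) p :=
    hζ.toInteger_isPrimitiveRoot.idealQuotient_mk (by rw [habs]; exact hq.out.ne_one)
      (by rw [habs]; exact (Nat.coprime_primes hq.out hp.out).mpr (ne_of_natCast_eq_one p q hq1))
  obtain ⟨n, hn⟩ := exists_intCast_eq_of_card_eq q hcard (Ideal.Quotient.mk Q hζ.toInteger)
  have hmem : hζ.toInteger - (n : 𝓞 K) ∈ Q := by
    rw [← Ideal.Quotient.eq_zero_iff_mem, map_sub, map_intCast, hn, sub_self]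
  have hmem2 : clRingAction p K d (hζ.toInteger - (n : 𝓞 K)) ∈ Q := by
    have := Ideal.mem_map_of_mem (clRingAction p K d : 𝓞 K →+* 𝓞 K) hmem
    rw [h] at this
    exact this
  rw [map_sub, clRingAction_intCast, clRingAction_apply_of_pow_eq_one p K d hζ1] at hmem2
  have hmem3 : hζ.toInteger ^ (d : ZMod p).val - hζ.toInteger ^ 1 ∈ Q := by
    have := Q.sub_mem hmem2 hmem
    rw [pow_one]
    convert this using 1
    ring
  rw [← Ideal.Quotient.eq_zero_iff_mem, map_sub, map_pow, map_pow, sub_eq_zero] at hmem3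
  have hval : (d : ZMod p).val = 1 :=
    hζk.pow_inj (ZMod.val_lt _) hp.out.one_lt hmem3
  apply Units.ext
  rw [Units.val_one, ← ZMod.natCast_zmod_val (d : ZMod p), hval, Nat.cast_one]

include hq1 hqQ in
/-- **Stickelberger's theorem in the Jacobi sum form** for a prime of degree one. -/
theorem exists_span_eq_prod_map (hp2 : p ≠ 2) :
    ∃ J : 𝓞 K, Ideal.span {J} =
      ∏ c ∈ exponentSet p, Q.map (clRingAction p K (expUnit p c)⁻¹ : 𝓞 K →+* 𝓞 K) := by
  classical
  obtain ⟨J, hJ1, hJ2⟩ := exists_jacobi p K q hq1 Q hqQ hp2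
  refine ⟨J, ?_⟩
  have hQbot : Q ≠ ⊥ := ne_bot_of_natCast_mem K q Q hqQ
  set P : ℕ → Ideal (𝓞 K) :=
    fun c => Q.map (clRingAction p K (expUnit p c)⁻¹ : 𝓞 K →+* 𝓞 K) with hP
  have hPmax : ∀ c, (P c).IsMaximal := by
    intro c
    rw [hP]
    simp only
    rw [Ideal.map_comap_of_equiv]
    exact Ideal.comap_isMaximal_of_surjective _ (clRingAction p K (expUnit p c)⁻¹).symm.surjective
  have hmem : ∀ c ∈ exponentSet p, J ∈ P c := by
    intro c hc
    rw [hP]
    simp only
    rw [mem_map_clRingAction_inv_iff]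
    apply hJ1
    rw [val_expUnit p hc]
    exact (mem_exponentSet.mp hc).2
  have hne : ∀ c ∈ exponentSet p, ∀ c' ∈ exponentSet p, c ≠ c' → P c ≠ P c' := by
    intro c hc c' hc' hcc h
    apply hcc
    apply expUnit_injOn p hc hc'
    have h2 := congrArg (Ideal.map (clRingAction p K (expUnit p c) : 𝓞 K →+* 𝓞 K)) h
    rw [hP] at h2
    simp only at h2
    rw [map_map_clRingAction, map_map_clRingAction, mul_inv_cancel, map_clRingAction_one] at h2
    have h3 := eq_one_of_map_eq_self p K q hq1 Q hqQ _ h2.symm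
    rw [mul_inv_eq_one] at h3
    exact h3
  have hdvd : (∏ c ∈ exponentSet p, P c) ∣ Ideal.span {J} := by
    apply Finset.prod_dvd_of_coprime
    · intro c hc c' hc' hcc
      show IsCoprime (P c) (P c')
      rw [Ideal.isCoprime_iff_sup_eq]
      exact (hPmax c).coprime_of_ne (hPmax c') (hne c hc c' hc' hcc)
    · intro c hc
      rw [Ideal.dvd_iff_le, Ideal.span_singleton_le_iff_mem]
      exact hmem c hc
  obtain ⟨I', hI'⟩ := hdvd
  have habsQ : Ideal.absNorm Q = q := absNorm_eq p K q hq1 Q hqQ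
  have habsP : Ideal.absNorm (∏ c ∈ exponentSet p, P c) = q ^ (exponentSet p).card := by
    rw [map_prod]
    rw [Finset.prod_congr rfl (fun c _ => ?_), Finset.prod_const]
    rw [hP]
    simp only
    rw [absNorm_map_ringEquiv, habsQ]
  have hrank : Module.finrank ℤ (𝓞 K) = p - 1 := by
    rw [RingOfIntegers.rank, IsCyclotomicExtension.finrank K
      (Polynomial.cyclotomic.irreducible_rat hp.out.pos), Nat.totient_prime hp.out]
  have habsJ : Ideal.absNorm (Ideal.span {J}) = q ^ (exponentSet p).card := by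
    have h1 : Ideal.absNorm (Ideal.span {J}) * Ideal.absNorm (Ideal.span {clRingAction p K (-1) J})
        = q ^ (p - 1) := by
      rw [← map_mul, Ideal.span_singleton_mul_span_singleton, hJ2, Ideal.absNorm_span_natCast, hrank]
    have h2 : Ideal.absNorm (Ideal.span {clRingAction p K (-1) J}) =
        Ideal.absNorm (Ideal.span {J}) := by
      rw [← absNorm_map_ringEquiv (clRingAction p K (-1)) (Ideal.span {J}), Ideal.map_span,
        Set.image_singleton]
      rfl
    rw [h2, ← two_mul_card_exponentSet p hp2, pow_mul', ← pow_two] at h1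
    exact Nat.pow_left_injective (n := 2) (by norm_num) h1
  have hI'top : I' = ⊤ := by
    rw [← Ideal.absNorm_eq_one_iff]
    have h := congrArg Ideal.absNorm hI'
    rw [map_mul, habsJ, habsP] at h
    have hpos : 0 < q ^ (exponentSet p).card := pow_pos hq.out.pos _
    exact (Nat.eq_of_mul_eq_mul_left hpos (by rw [mul_one]; exact h.symm))
  rw [hI', hI'top, Ideal.mul_top]

end DegreeOne

end Fermat.Agent.CFT.Stick
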