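import Mathlib

/-!
# CFT (C5) Stickelberger, part 1: power residue characters and Jacobi sums modulo a prime

Abstract setting: `π : R →+* k` a ring homomorphism onto a finite field `k` with `#k = p m + 1`,
`ζ : R` a `p`-th root of unity whose image is a primitive `p`-th root of unity of `k`.
* `exists_powerResidueChar`: a multiplicative character `χ : k → R` with `π (χ x) = x ^ m`.
* `powerResidueChar_pow_ne_one`: `χ ^ j ≠ 1` for `0 < j < p`.
* `map_jacobiSum_pow_pow_eq_zero`: `π (J(χ^a, χ^b)) = 0` for `0 < a, b`, `a + b < p`.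
-/

namespace Fermat.Agent.CFT.Stick

open Finset Polynomial

section PowerSum

variable {k : Type*} [Field k] [Fintype k]

theorem sum_eval_eq_zero_of_natDegree_lt (P : k[X]) (h : P.natDegree < Fintype.card k - 1) :
    ∑ x : k, P.eval x = 0 := by
  simp_rw [Polynomial.eval_eq_sum_range]
  rw [Finset.sum_comm]
  refine Finset.sum_eq_zero fun i hi => ?_
  rw [← Finset.mul_sum, FiniteField.sum_pow_lt_card_sub_one k i, mul_zero]
  rw [Finset.mem_range] at hi
  omega

theorem sum_pow_mul_one_sub_pow_eq_zero (u v : ℕ) (h : u + v < Fintype.card k - 1) :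
    ∑ x : k, x ^ u * (1 - x) ^ v = 0 := by
  have := sum_eval_eq_zero_of_natDegree_lt (X ^ u * (1 - X) ^ v : k[X]) ?_
  · simpa using this
  · refine lt_of_le_of_lt ?_ h
    refine (natDegree_mul_le).trans ?_
    refine add_le_add (natDegree_X_pow_le _) ?_
    refine (natDegree_pow_le).trans ?_
    have : (1 - X : k[X]).natDegree ≤ 1 := by
      refine (natDegree_sub_le _ _).trans ?_
      simp
    calc v * (1 - X : k[X]).natDegree ≤ v * 1 := Nat.mul_le_mul_left _ this
      _ = v := mul_one v

/-- A finite field in which every element satisfies `x ^ q = x` has `q` elements. -/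
theorem card_eq_of_forall_pow_eq (q : ℕ) [hq : Fact q.Prime]
    (hchar : (q : k) = 0) (h : ∀ y : k, y ^ q = y) : Fintype.card k = q := by
  classical
  have : CharP k q := (CharP.charP_iff_prime_eq_zero hq.out).mpr hchar
  apply le_antisymm
  · have hne : (X ^ q - X : k[X]) ≠ 0 := FiniteField.X_pow_card_sub_X_ne_zero k hq.out.one_lt
    have hdeg : (X ^ q - X : k[X]).natDegree = q :=
      FiniteField.X_pow_card_sub_X_natDegree_eq k hq.out.one_lt
    have hsub : (Finset.univ : Finset k) ⊆ (X ^ q - X : k[X]).roots.toFinset := by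
      intro y _
      rw [Multiset.mem_toFinset, mem_roots hne]
      simp [h y]
    calc Fintype.card k = (Finset.univ : Finset k).card := rfl
      _ ≤ (X ^ q - X : k[X]).roots.toFinset.card := Finset.card_le_card hsub
      _ ≤ Multiset.card (X ^ q - X : k[X]).roots := Multiset.toFinset_card_le _
      _ ≤ (X ^ q - X : k[X]).natDegree := card_roots' _
      _ = q := hdeg
  · have := Fintype.card_le_of_injective _ (ZMod.castHom (dvd_refl q) k).injective
    rwa [ZMod.card] at this

theorem exists_intCast_eq_of_card_eq (q : ℕ) [hq : Fact q.Prime]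
    (hcard : Fintype.card k = q) (y : k) : ∃ n : ℤ, (n : k) = y := by
  classical
  have : CharP k q := by
    have : (q : k) = 0 := by rw [← hcard]; exact Nat.cast_card_eq_zero k
    exact (CharP.charP_iff_prime_eq_zero hq.out).mpr this
  have hbij : Function.Bijective (ZMod.castHom (dvd_refl q) k) := by
    rw [Fintype.bijective_iff_injective_and_card]
    exact ⟨(ZMod.castHom (dvd_refl q) k).injective, by rw [ZMod.card, hcard]⟩
  obtain ⟨z, rfl⟩ := hbij.2 y
  refine ⟨(z.val : ℤ), ?_⟩
  simp

end PowerSum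

section Character

variable {k : Type*} [Field k] [Fintype k] {R : Type*} [CommRing R]
  (π : R →+* k) {p : ℕ} {m : ℕ} (hm : Fintype.card k = p * m + 1)

include hm in
theorem pos_of_card_eq : 0 < m := by
  rcases Nat.eq_zero_or_pos m with h | h
  · subst h
    have h1 : Fintype.card k = 1 := by simpa using hm
    have := Fintype.one_lt_card (α := k)
    omega
  · exact h

include hm in
theorem card_units_eq [DecidableEq k] : Fintype.card kˣ = p * m := by
  rw [Fintype.card_units, hm]; simp

include hm in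
/-- The `p`-th power residue character of a finite field `k = R/𝔮`, with values in `R`. -/
theorem exists_powerResidueChar [DecidableEq k] [hp : Fact p.Prime] {ζ : R} (hζ : ζ ^ p = 1)
    (hζk : IsPrimitiveRoot (π ζ) p) :
    ∃ χ : MulChar k R, (∀ x : kˣ, χ x ^ p = 1) ∧ (∀ x : k, π (χ x) = x ^ m) := by
  have hm0 : 0 < m := pos_of_card_eq hm
  obtain ⟨g, hg⟩ := IsCyclic.exists_generator (α := kˣ)
  have hcardu : Fintype.card kˣ = p * m := card_units_eq hm
  -- `g ^ m` is a `p`-th root of unity in `k`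
  have hgm : ((g ^ m : kˣ) : k) ^ p = 1 := by
    rw [← Units.val_pow_eq_pow_val, ← pow_mul, mul_comm, ← hcardu, pow_card_eq_one, Units.val_one]
  obtain ⟨i, -, hi⟩ := hζk.eq_pow_of_pow_eq_one hgm
  -- the root of unity `ζ ^ i` as a unit of `R`
  have hξ : (ζ ^ i) ^ p = 1 := by rw [← pow_mul, mul_comm, pow_mul, hζ, one_pow]
  let ξ : Rˣ := Units.ofPowEqOne (ζ ^ i) p hξ hp.out.ne_zero
  have hξmem : ξ ∈ rootsOfUnity (Fintype.card kˣ) R := by
    rw [mem_rootsOfUnity, hcardu, pow_mul, ← Units.val_inj, Units.val_pow_eq_pow_val,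
      Units.val_pow_eq_pow_val]
    show ((ζ ^ i) ^ p) ^ m = _
    rw [hξ, one_pow, Units.val_one]
  let χ : MulChar k R := MulChar.ofRootOfUnity hξmem hg
  have hχg : χ g = ζ ^ i := by
    have := MulChar.ofRootOfUnity_spec hξmem hg
    rw [this]; rfl
  have hunit : ∀ x : kˣ, ∃ j : ℕ, x = g ^ j := by
    intro x
    obtain ⟨j, hj⟩ := (Submonoid.mem_powers_iff _ _).mp (mem_powers_iff_mem_zpowers.mpr (hg x))
    exact ⟨j, hj.symm⟩
  have hχpow : ∀ j : ℕ, χ ((g ^ j : kˣ) : k) = (ζ ^ i) ^ j := by
    intro j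
    rw [Units.val_pow_eq_pow_val, map_pow, hχg]
  refine ⟨χ, ?_, ?_⟩
  · intro x
    obtain ⟨j, rfl⟩ := hunit x
    rw [hχpow, ← pow_mul, mul_comm, pow_mul, hξ, one_pow]
  · intro x
    by_cases hx : x = 0
    · subst hx
      rw [MulChar.map_zero, map_zero, zero_pow hm0.ne']
    · obtain ⟨j, hj⟩ := hunit (Units.mk0 x hx)
      have hxj : x = ((g ^ j : kˣ) : k) := by rw [← hj]; rfl
      rw [hxj, hχpow, map_pow, map_pow, hi, Units.val_pow_eq_pow_val, Units.val_pow_eq_pow_val,
        ← pow_mul, ← pow_mul, mul_comm]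

variable {χ : MulChar k R} (hχ : ∀ x : k, π (χ x) = x ^ m)

include hm hχ in
theorem powerResidueChar_pow_ne_one {j : ℕ} (hj0 : 0 < j) (hjp : j < p) : χ ^ j ≠ 1 := by
  classical
  intro h
  obtain ⟨g, hg⟩ := IsCyclic.exists_generator (α := kˣ)
  have hcardu : Fintype.card kˣ = p * m := card_units_eq hm
  have hm0 : 0 < m := pos_of_card_eq hm
  have h1 : (χ ^ j) (g : k) = 1 := by rw [h, MulChar.one_apply_coe]
  rw [MulChar.pow_apply' _ hj0.ne'] at h1
  have h2 : (g : k) ^ (m * j) = 1 := by
    rw [pow_mul, ← hχ, ← map_pow, h1, map_one]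
  have h3 : g ^ (m * j) = 1 := by
    rw [← Units.val_inj, Units.val_pow_eq_pow_val, h2, Units.val_one]
  have h4 : orderOf g = p * m := by
    rw [orderOf_eq_card_of_forall_mem_zpowers hg, Nat.card_eq_fintype_card, hcardu]
  have h5 : p * m ∣ m * j := by rw [← h4]; exact orderOf_dvd_of_pow_eq_one h3
  rw [mul_comm p m] at h5
  have h6 : p ∣ j := Nat.dvd_of_mul_dvd_mul_left hm0 h5
  exact absurd (Nat.le_of_dvd hj0 h6) (by omega)

include hm hχ in
theorem map_jacobiSum_pow_pow_eq_zero {a b : ℕ} (ha : 0 < a) (hb : 0 < b) (hab : a + b < p) :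
    π (jacobiSum (χ ^ a) (χ ^ b)) = 0 := by
  rw [jacobiSum, map_sum]
  have : ∀ x : k, π ((χ ^ a) x * (χ ^ b) (1 - x)) = x ^ (m * a) * (1 - x) ^ (m * b) := by
    intro x
    rw [map_mul, MulChar.pow_apply' _ ha.ne', MulChar.pow_apply' _ hb.ne', map_pow, map_pow,
      hχ, hχ, pow_mul, pow_mul]
  simp_rw [this]
  apply sum_pow_mul_one_sub_pow_eq_zero
  rw [hm, Nat.add_sub_cancel, ← mul_add, mul_comm]
  exact Nat.mul_lt_mul_of_pos_right hab (pos_of_card_eq hm)

end Character

end Fermat.Agent.CFT.Stick
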